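import Mathlib
import Fermat.Agent.LT.T7.H563.PTSpec
import Fermat.Agent.LT.T7.H317.RestrG
import Fermat.Agent.LT.T7.H981.FinIndex
import Fermat.Agent.LT.T6.H944.OrbSumUniq

/-!
# Row LT, tower T7, calculus of pure tensors, leaf PT.5 `LsumDblC563` (helper219, OFF-MAIN)

`lsumDblC219 (K) : PT563.LsumDblC563 K`, VERBATIM against `LT/T7/H563/PTSpec.lean` (helper563,
sha256 c4658ddd).  UNCONDITIONAL, every number field.

Proof.  For `h = u₁ g u₂` in the system: `h` is trivial at infinity, `h_v ∈ U_v` outside `S₀`.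
So `OutT305 T (h⁻¹ y) ↔ OutT305 T y`, the components at infinity and at `T ∖ S₀` of the translate
are those of `y`, and the component at `v ∈ S₀` is `1_{h_v U_v}(y_v)`.  The number of `h` in
the system with `y_v ∈ h_v U_v` for all `v ∈ S₀` is `1` if `y_v ∈ U_v g_v U_v` for all
`v ∈ S₀` (existence: glue the left factors and use the completeness of the system; uniqueness:
the members are pairwise inequivalent) and `0` otherwise.
-/

set_option autoImplicit false
set_option linter.style.haveILetI false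
set_option linter.unusedSectionVars false
set_option linter.unusedVariables false

open IsDedekindDomain NumberField MeasureTheory

noncomputable section

namespace Fermat.Agent.LT.T7.H219

open Fermat.Agent.LT.H556 Fermat.Agent.LT.H556.A0 Fermat.Agent.LT Fermat.Agent.LT.T7
open Fermat.Agent.LT.T7.H305 Fermat.Agent.LT.T7.H893 Fermat.Agent.LT.T7.H317
open Fermat.Agent.LT.T7.H981

variable {K : Type} [Field K] [NumberField K]

/-! ## 1. Unfolding by definitional equality -/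

open Classical in
theorem pure305_eq219l (T : Finset (HeightOneSpectrum (𝓞 K)))
    (f₀ : ∀ v : HeightOneSpectrum (𝓞 K), GL (Fin 2) (v.adicCompletion K) → ℂ)
    (F : InfinitePlace K → GL (Fin 2) ℂ → ℂ) (x : G K) :
    pure305 T f₀ F x = if OutT305 T x then
      (∏ v ∈ T, f₀ v (finGL305 v x)) * ∏ w : InfinitePlace K, F w (infGL305 w x) else 0 := rfl

open Classical in
theorem unitFn_eq219l {k : Type} [Field k] [Valued k T6.Γ₀] (n : ℕ) (x : GL (Fin 2) k) :
    unitFn893 n x = if T6.InU n x then 1 else 0 := rfl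

open Classical in
theorem dblFn_eq219l {k : Type} [Field k] [Valued k T6.Γ₀] (n : ℕ) (y x : GL (Fin 2) k) :
    dblFn893 n y x
      = if ∃ u₁ u₂ : GL (Fin 2) k, T6.InU n u₁ ∧ T6.InU n u₂ ∧ x = u₁ * y * u₂ then 1 else 0 :=
  rfl

theorem lsum_eq219l (H : Finset (G K)) (φ : G K → ℂ) (y : G K) :
    lsum H φ y = ∑ h ∈ H, φ (h⁻¹ * y) := rfl

/-! ## 2. Components -/

theorem trivAtInf_one219l (w : InfinitePlace K) : TrivAtInf w (1 : G K) := by
  rw [trivAtInf_iff981]
  show (1 : Matrix (Fin 2) (Fin 2) (Adl K)).map (infW981 w) = 1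
  rw [Matrix.map_one _ (map_zero _) (map_one _)]

theorem trivAtInf_inv219l (w : InfinitePlace K) {g : G K} (hg : TrivAtInf w g) :
    TrivAtInf w g⁻¹ := by
  have := trivAtInf_inv_mul981 w hg (trivAtInf_one219l w)
  rwa [mul_one] at this

theorem trivAtInf_mul219l (w : InfinitePlace K) {g h : G K} (hg : TrivAtInf w g)
    (hh : TrivAtInf w h) : TrivAtInf w (g * h) := by
  have := trivAtInf_inv_mul981 w (trivAtInf_inv219l w hg) hh
  rwa [inv_inv] at this

theorem infGL_of_triv219l (w : InfinitePlace K) {h : G K} (hh : TrivAtInf w h) :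
    infGL305 w h = 1 := by
  apply Units.ext
  refine Matrix.ext fun i j => ?_
  show InfinitePlace.Completion.extensionEmbedding w
      (((h : Matrix (Fin 2) (Fin 2) (Adl K)) i j).1 w) = (1 : Matrix (Fin 2) (Fin 2) ℂ) i j
  rw [hh i j]
  by_cases hij : i = j
  · rw [hij, Matrix.one_apply_eq, Matrix.one_apply_eq, map_one]
  · rw [Matrix.one_apply_ne hij, Matrix.one_apply_ne hij, map_zero]

theorem finGL_of_triv219l (v : HeightOneSpectrum (𝓞 K)) {g : G K} (hg : TrivAtFin v g) :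
    finGL305 v g = 1 := by
  apply Units.ext
  exact hg

theorem inU_one219l {k : Type} [Field k] [Valued k T6.Γ₀] (n : ℕ) :
    T6.InU n (1 : GL (Fin 2) k) := by
  intro i j
  constructor
  · rw [Units.val_one, sub_self, map_zero]
    exact zero_le
  · rw [inv_one, Units.val_one, sub_self, map_zero]
    exact zero_le

theorem valued_one_entry219l {k : Type} [Field k] [Valued k T6.Γ₀] (i j : Fin 2) :
    Valued.v ((1 : Matrix (Fin 2) (Fin 2) k) i j) ≤ 1 := by
  by_cases hij : i = j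
  · rw [hij, Matrix.one_apply_eq, map_one]
  · rw [Matrix.one_apply_ne hij, map_zero]
    exact zero_le_one

theorem integral_of_inU219l {k : Type} [Field k] [Valued k T6.Γ₀] {n : ℕ} {x : GL (Fin 2) k}
    (hx : T6.InU n x) (i j : Fin 2) :
    Valued.v ((x : Matrix (Fin 2) (Fin 2) k) i j) ≤ 1 ∧
      Valued.v (((x⁻¹ : GL (Fin 2) k) : Matrix (Fin 2) (Fin 2) k) i j) ≤ 1 := by
  have hle : WithZero.exp (-(n : ℤ)) ≤ (1 : WithZero (Multiplicative ℤ)) := by
    rw [← WithZero.exp_zero, WithZero.exp_le_exp]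
    exact neg_nonpos.2 (Int.natCast_nonneg n)
  have key : ∀ a d : k, Valued.v (a - d) ≤ WithZero.exp (-(n : ℤ)) → Valued.v d ≤ 1 →
      Valued.v a ≤ 1 := by
    intro a d h1 h2
    have e : a = (a - d) + d := (sub_add_cancel a d).symm
    rw [e]
    exact (Valued.v.map_add _ _).trans (max_le (h1.trans hle) h2)
  exact ⟨key _ _ (hx i j).1 (valued_one_entry219l i j),
    key _ _ (hx i j).2 (valued_one_entry219l i j)⟩

theorem outT_of_inU219l (T : Finset (HeightOneSpectrum (𝓞 K))) (n₀ : HeightOneSpectrum (𝓞 K) → ℕ)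
    {h : G K} (hh : ∀ v : HeightOneSpectrum (𝓞 K), v ∉ T → T6.InU (n₀ v) (finGL305 v h)) :
    OutT305 T h := by
  intro v hv
  refine ⟨fun i j => ?_, fun i j => ?_⟩
  · exact (HeightOneSpectrum.mem_adicCompletionIntegers _ _ _).2
      (integral_of_inU219l (hh v hv) i j).1
  · have h2 := (integral_of_inU219l (hh v hv) i j).2
    rw [← map_inv] at h2
    exact (HeightOneSpectrum.mem_adicCompletionIntegers _ _ _).2 h2

/-- The level group, place by place. -/
theorem inLevel_iff219l {𝔑₀ : Ideal (𝓞 K)} {n₀ : HeightOneSpectrum (𝓞 K) → ℕ}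
    (hlev : IsLevelOf893 𝔑₀ n₀) (u : G K) :
    InLevelGroup 𝔑₀ u ↔ (∀ w : InfinitePlace K, TrivAtInf w u) ∧
      ∀ v : HeightOneSpectrum (𝓞 K), T6.InU (n₀ v) (finGL305 v u) := by
  constructor
  · rintro ⟨h1, h2⟩
    refine ⟨h1, fun v i j => ⟨?_, ?_⟩⟩
    · exact (hlev v _).1 (h2 v i j).1
    · rw [← map_inv]
      exact (hlev v _).1 (h2 v i j).2
  · rintro ⟨h1, h2⟩
    refine ⟨h1, fun v i j => ⟨(hlev v _).2 (h2 v i j).1, (hlev v _).2 ?_⟩⟩
    have h3 := (h2 v i j).2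
    rw [← map_inv] at h3
    exact h3

/-! ## 3. The members of the system -/

theorem member219l {𝔑₀ : Ideal (𝓞 K)} {n₀ : HeightOneSpectrum (𝓞 K) → ℕ}
    (hlev : IsLevelOf893 𝔑₀ n₀) {g : G K} {S₀ : Finset (HeightOneSpectrum (𝓞 K))}
    (hgI : ∀ w : InfinitePlace K, TrivAtInf w g)
    (hgF : ∀ v : HeightOneSpectrum (𝓞 K), v ∉ S₀ → TrivAtFin v g)
    {h u₁ u₂ : G K} (h1 : InLevelGroup 𝔑₀ u₁) (h2 : InLevelGroup 𝔑₀ u₂) (e : h = u₁ * g * u₂) :
    (∀ w : InfinitePlace K, TrivAtInf w h) ∧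
      (∀ v : HeightOneSpectrum (𝓞 K), v ∉ S₀ → T6.InU (n₀ v) (finGL305 v h)) ∧
      ∀ v : HeightOneSpectrum (𝓞 K), T6.InU (n₀ v) (finGL305 v u₁) ∧
        T6.InU (n₀ v) (finGL305 v u₂) ∧
        finGL305 v h = finGL305 v u₁ * finGL305 v g * finGL305 v u₂ := by
  have k1 := (inLevel_iff219l hlev u₁).1 h1
  have k2 := (inLevel_iff219l hlev u₂).1 h2
  have e3 : ∀ v : HeightOneSpectrum (𝓞 K),
      finGL305 v h = finGL305 v u₁ * finGL305 v g * finGL305 v u₂ := by
    intro v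
    rw [e, map_mul, map_mul]
  refine ⟨fun w => ?_, fun v hv => ?_, fun v => ⟨k1.2 v, k2.2 v, e3 v⟩⟩
  · rw [e]
    exact trivAtInf_mul219l w (trivAtInf_mul219l w (k1.1 w) (hgI w)) (k2.1 w)
  · rw [e3 v, finGL_of_triv219l v (hgF v hv), mul_one]
    exact T6.H944.inU_mul944 _ _ _ (k1.2 v) (k2.2 v)

/-! ## 4. A pure tensor with an indicator at the places of `S₀` -/

open Classical in
theorem pure_indicator219l (T S₀ : Finset (HeightOneSpectrum (𝓞 K))) (hST : S₀ ⊆ T)
    (f₀ f₁ : ∀ v : HeightOneSpectrum (𝓞 K), GL (Fin 2) (v.adicCompletion K) → ℂ)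
    (F : InfinitePlace K → GL (Fin 2) ℂ → ℂ) (y y' : G K) (P : Prop) [Decidable P]
    (hOut : OutT305 T y' ↔ OutT305 T y)
    (hF : ∀ w : InfinitePlace K, infGL305 w y' = infGL305 w y)
    (hT : ∀ v ∈ T, v ∉ S₀ → f₁ v (finGL305 v y') = f₀ v (finGL305 v y))
    (hS1 : P → ∀ v ∈ S₀, f₁ v (finGL305 v y') = 1)
    (hS0 : ¬ P → ∃ v ∈ S₀, f₁ v (finGL305 v y') = 0) :
    pure305 T f₁ F y' = (if P then (1 : ℂ) else 0) *
      pure305 T (fun v => if v ∈ S₀ then (fun _ => (1 : ℂ)) else f₀ v) F y := by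
  rw [pure305_eq219l, pure305_eq219l]
  by_cases hy : OutT305 T y
  · rw [if_pos hy, if_pos (hOut.2 hy)]
    have hInf : ∏ w : InfinitePlace K, F w (infGL305 w y')
        = ∏ w : InfinitePlace K, F w (infGL305 w y) :=
      Finset.prod_congr rfl (fun w _ => by rw [hF w])
    rw [hInf]
    by_cases hP : P
    · rw [if_pos hP, one_mul]
      congr 1
      refine Finset.prod_congr rfl (fun v hv => ?_)
      by_cases hvS : v ∈ S₀
      · rw [hS1 hP v hvS, if_pos hvS]
      · rw [hT v hv hvS, if_neg hvS]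
    · rw [if_neg hP, zero_mul]
      obtain ⟨v, hvS, hv0⟩ := hS0 hP
      rw [Finset.prod_eq_zero (hST hvS) hv0, zero_mul]
  · rw [if_neg hy, if_neg (fun h => hy (hOut.1 h)), mul_zero]

/-! ## 5. The leaf -/

/-- **LEAF PT.5 `LsumDblC563`**, every number field, unconditional. -/
theorem lsumDblC219 (K : Type) [Field K] [NumberField K] : PT563.LsumDblC563 K := by
  intro 𝔑₀ n₀ hN hlev g S₀ hgI hgF Hg hHg T hST f₀ F hS₀ hTS y
  classical
  -- the members
  have hmem : ∀ h ∈ Hg, (∀ w : InfinitePlace K, TrivAtInf w h) ∧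
      (∀ v : HeightOneSpectrum (𝓞 K), v ∉ S₀ → T6.InU (n₀ v) (finGL305 v h)) ∧
      ∀ v : HeightOneSpectrum (𝓞 K), ∃ a b : GL (Fin 2) (v.adicCompletion K),
        T6.InU (n₀ v) a ∧ T6.InU (n₀ v) b ∧ finGL305 v h = a * finGL305 v g * b := by
    intro h hh
    obtain ⟨u₁, u₂, h1, h2, e⟩ := hHg.1 h hh
    obtain ⟨m1, m2, m3⟩ := member219l hlev hgI hgF h1 h2 e
    exact ⟨m1, m2, fun v => ⟨_, _, (m3 v).1, (m3 v).2.1, (m3 v).2.2⟩⟩
  -- the two conditions
  let M : G K → Prop := fun h =>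
    ∀ v ∈ S₀, T6.InU (n₀ v) ((finGL305 v h)⁻¹ * finGL305 v y)
  let D : Prop := ∀ v ∈ S₀, ∃ u₁ u₂ : GL (Fin 2) (v.adicCompletion K),
    T6.InU (n₀ v) u₁ ∧ T6.InU (n₀ v) u₂ ∧ finGL305 v y = u₁ * finGL305 v g * u₂
  -- the translates
  have hval : ∀ h ∈ Hg, pure305 T f₀ F (h⁻¹ * y) = (if M h then (1 : ℂ) else 0) *
      pure305 T (fun v => if v ∈ S₀ then (fun _ => (1 : ℂ)) else f₀ v) F y := by
    intro h hh
    obtain ⟨m1, m2, m3⟩ := hmem h hh
    have hOh : h ∈ outSub_r317 T :=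
      outT_of_inU219l T n₀ (fun v hv => m2 v (fun hvS => hv (hST hvS)))
    refine pure_indicator219l T S₀ hST f₀ f₀ F y (h⁻¹ * y) (M h) ?_ ?_ ?_ ?_ ?_
    · exact (outSub_r317 T).mul_mem_cancel_left ((outSub_r317 T).inv_mem hOh)
    · intro w
      rw [map_mul, map_inv, infGL_of_triv219l w (m1 w), inv_one, one_mul]
    · intro v hv hvS
      rw [map_mul, map_inv]
      exact hTS v hv hvS _ _ (T6.H944.inU_inv944 _ _ (m2 v hvS))
    · intro hM v hvS
      rw [hS₀ v hvS, unitFn_eq219l, map_mul, map_inv, if_pos (hM v hvS)]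
    · intro hM
      have hM' : ∃ v ∈ S₀, ¬ T6.InU (n₀ v) ((finGL305 v h)⁻¹ * finGL305 v y) := by
        by_contra hcon
        apply hM
        intro v hvS
        by_contra hv2
        exact hcon ⟨v, hvS, hv2⟩
      obtain ⟨v, hvS, hv2⟩ := hM'
      refine ⟨v, hvS, ?_⟩
      rw [hS₀ v hvS, unitFn_eq219l, map_mul, map_inv, if_neg hv2]
  -- the right-hand side
  have hrhs : pure305 T (fun v => if v ∈ S₀ then dblFn893 (n₀ v) (finGL305 v g) else f₀ v) F y
      = (if D then (1 : ℂ) else 0) *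
        pure305 T (fun v => if v ∈ S₀ then (fun _ => (1 : ℂ)) else f₀ v) F y := by
    refine pure_indicator219l T S₀ hST f₀ _ F y y D Iff.rfl (fun _ => rfl) ?_ ?_ ?_
    · intro v hv hvS
      rw [if_neg hvS]
    · intro hD v hvS
      rw [if_pos hvS, dblFn_eq219l, if_pos (hD v hvS)]
    · intro hD
      have hD' : ∃ v ∈ S₀, ¬ ∃ u₁ u₂ : GL (Fin 2) (v.adicCompletion K),
          T6.InU (n₀ v) u₁ ∧ T6.InU (n₀ v) u₂ ∧ finGL305 v y = u₁ * finGL305 v g * u₂ := by
        by_contra hcon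
        apply hD
        intro v hvS
        by_contra hv2
        exact hcon ⟨v, hvS, hv2⟩
      obtain ⟨v, hvS, hv2⟩ := hD'
      refine ⟨v, hvS, ?_⟩
      rw [if_pos hvS, dblFn_eq219l, if_neg hv2]
  -- `M h` gives `D`
  have hMD : ∀ h ∈ Hg, M h → D := by
    intro h hh hM v hvS
    obtain ⟨a, b, ha, hb, e⟩ := (hmem h hh).2.2 v
    refine ⟨a, b * ((finGL305 v h)⁻¹ * finGL305 v y), ha,
      T6.H944.inU_mul944 _ _ _ hb (hM v hvS), ?_⟩
    have e2 : a * finGL305 v g * (b * ((finGL305 v h)⁻¹ * finGL305 v y))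
        = (a * finGL305 v g * b) * ((finGL305 v h)⁻¹ * finGL305 v y) := by
      simp only [mul_assoc]
    rw [e2, ← e, mul_inv_cancel_left]
  -- uniqueness
  have huniq : ∀ h ∈ Hg, ∀ h' ∈ Hg, M h → M h' → h = h' := by
    intro h hh h' hh' hM hM'
    by_contra hne
    apply hHg.2.1 h hh h' hh' hne
    rw [inLevel_iff219l hlev]
    refine ⟨fun w => trivAtInf_inv_mul981 w ((hmem h hh).1 w) ((hmem h' hh').1 w), fun v => ?_⟩
    rw [map_mul, map_inv]
    by_cases hvS : v ∈ S₀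
    · have e2 : (finGL305 v h)⁻¹ * finGL305 v h'
          = ((finGL305 v h)⁻¹ * finGL305 v y) * ((finGL305 v h')⁻¹ * finGL305 v y)⁻¹ := by
        group
      rw [e2]
      exact T6.H944.inU_mul944 _ _ _ (hM v hvS) (T6.H944.inU_inv944 _ _ (hM' v hvS))
    · exact T6.H944.inU_mul944 _ _ _ (T6.H944.inU_inv944 _ _ ((hmem h hh).2.1 v hvS))
        ((hmem h' hh').2.1 v hvS)
  -- existence
  have hex : D → ∃ h ∈ Hg, M h := by
    intro hD
    have hD' : ∀ v : HeightOneSpectrum (𝓞 K), ∃ a : GL (Fin 2) (v.adicCompletion K),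
        (v ∉ S₀ → a = 1) ∧ T6.InU (n₀ v) a ∧
        (v ∈ S₀ → ∃ b : GL (Fin 2) (v.adicCompletion K), T6.InU (n₀ v) b ∧
          finGL305 v y = a * finGL305 v g * b) := by
      intro v
      by_cases hvS : v ∈ S₀
      · obtain ⟨a, b, ha, hb, e⟩ := hD v hvS
        exact ⟨a, fun hn => absurd hvS hn, ha, fun _ => ⟨b, hb, e⟩⟩
      · exact ⟨1, fun _ => rfl, inU_one219l _, fun hn => absurd hn hvS⟩
    choose A hA1 hA2 hA3 using hD'
    have hu : InLevelGroup 𝔑₀ (glue_r317 S₀ A hA1 (fun w => 1)) := by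
      rw [inLevel_iff219l hlev]
      refine ⟨fun w i j => rfl, fun v => ?_⟩
      rw [finGL_glue_r317]
      exact hA2 v
    obtain ⟨h, hh, hhu⟩ := hHg.2.2 _ hu
    refine ⟨h, hh, fun v hvS => ?_⟩
    obtain ⟨b, hb, e⟩ := hA3 v hvS
    have h1 := ((inLevel_iff219l hlev _).1 hhu).2 v
    rw [map_mul, map_mul, map_inv, finGL_glue_r317] at h1
    have e2 : (finGL305 v h)⁻¹ * finGL305 v y
        = ((finGL305 v h)⁻¹ * (A v * finGL305 v g)) * b := by
      rw [e]
      simp only [mul_assoc]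
    rw [e2]
    exact T6.H944.inU_mul944 _ _ _ h1 hb
  -- the count
  have hcount : ∑ h ∈ Hg, (if M h then (1 : ℂ) else 0) = if D then (1 : ℂ) else 0 := by
    by_cases hD : D
    · obtain ⟨h₀, hh₀, hM₀⟩ := hex hD
      rw [if_pos hD, Finset.sum_eq_single h₀, if_pos hM₀]
      · intro h hh hne
        rw [if_neg (fun hM => hne (huniq h hh h₀ hh₀ hM hM₀))]
      · intro hn
        exact absurd hh₀ hn
    · rw [if_neg hD]
      refine Finset.sum_eq_zero (fun h hh => ?_)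
      rw [if_neg (fun hM => hD (hMD h hh hM))]
  rw [lsum_eq219l, Finset.sum_congr rfl hval, ← Finset.sum_mul, hcount, hrhs]

end Fermat.Agent.LT.T7.H219

end
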