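import Mathlib
import Fermat.Agent.LT.T7.H57.PreBSpec
import Fermat.Agent.LT.T7.H616.IwLocal
import Fermat.Agent.LT.T7.H219.LsumDbl
import Fermat.Agent.LT.T2.H131.WeakApprox

/-!
# Row LT, tower T7, leaf PB.0.D0 `PB57.SwapDnSumC57`: THE KEY IDENTITY DOWNSTAIRS
# (helper219, OFF-MAIN)

`swapDnSumC219 (K K') : PB57.SwapDnSumC57 K K'`, VERBATIM against `LT/T7/H57/PreBSpec.lean`
(helper57, sha256 d5bf85f8).  UNCONDITIONAL.

Proof.  At `v ∈ T₀` the swapped component `ψ_v` (the Iwahori function at `u`, the partner `fb v`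
elsewhere) is right invariant under `U(m v)` with finite support modulo `U(m v)` (`m u ≥ 1`;
`PB616.iw_inv_at616` of helper616, `IsBadPart57.inv_down`), hence
`ψ_v(y) = ∑_{x ∈ R_v} ψ_v(x) 1_{U(m v)}(x⁻¹ y)` for a finite set `R_v` of representatives of the
cosets of the support.  The product over `v ∈ T₀` is the sum over the families `(x_v)`; a family
is glued to an element of `GL₂(𝔸_K)` which is trivial at infinity and outside `T₀`; the
components of the first pair at `T₀` are the units `1_{U(m v)}` (`LocA893`).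
-/

set_option autoImplicit false
set_option linter.style.haveILetI false
set_option linter.unusedSectionVars false
set_option linter.unusedVariables false

open IsDedekindDomain NumberField MeasureTheory

noncomputable section

namespace Fermat.Agent.LT.T7.H219

open Fermat.Agent.LT.H556 Fermat.Agent.LT.H556.A0 Fermat.Agent.LT Fermat.Agent.LT.T7
open Fermat.Agent.LT.T7.H305 Fermat.Agent.LT.T7.H893 Fermat.Agent.LT.T7.H317
open Fermat.Agent.LT.T7.H981 Fermat.Agent.LT.T7.Q797

attribute [local instance] Fermat.Agent.LT.T5.instMeasurableSpaceG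

/-! ## 1. Local: decomposition into left translates of the unit -/

theorem exists_irredundant219w {α : Type} (r : α → α → Prop) (hrefl : ∀ a, r a a)
    (hsymm : ∀ a b, r a b → r b a) (C : Finset α) :
    ∃ H : Finset α, H ⊆ C ∧ (∀ h ∈ H, ∀ h' ∈ H, h ≠ h' → ¬ r h h') ∧
      ∀ c ∈ C, ∃ h ∈ H, r h c := by
  classical
  induction C using Finset.induction_on with
  | empty =>
    refine ⟨∅, Finset.Subset.refl _, ?_, ?_⟩
    · intro h hh
      exact absurd hh (Finset.notMem_empty h)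
    · intro c hc
      exact absurd hc (Finset.notMem_empty c)
  | insert c C hc ih =>
    obtain ⟨H, hHC, hirr, hcov⟩ := ih
    by_cases hex : ∃ h ∈ H, r h c
    · refine ⟨H, hHC.trans (Finset.subset_insert _ _), hirr, fun x hx => ?_⟩
      rcases Finset.mem_insert.1 hx with e1 | hx1
      · exact e1 ▸ hex
      · exact hcov x hx1
    · refine ⟨insert c H, Finset.insert_subset_insert _ hHC, ?_, ?_⟩
      · intro h hh h' hh' hne hr
        rcases Finset.mem_insert.1 hh with e1 | hh1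
        · rcases Finset.mem_insert.1 hh' with e2 | hh2
          · exact hne (e1.trans e2.symm)
          · exact hex ⟨h', hh2, hsymm _ _ (e1 ▸ hr)⟩
        · rcases Finset.mem_insert.1 hh' with e2 | hh2
          · exact hex ⟨h, hh1, e2 ▸ hr⟩
          · exact hirr h hh1 h' hh2 hne hr
      · intro x hx
        rcases Finset.mem_insert.1 hx with e1 | hx1
        · exact ⟨c, Finset.mem_insert_self _ _, e1 ▸ hrefl c⟩
        · obtain ⟨h, hh, hr⟩ := hcov x hx1
          exact ⟨h, Finset.mem_insert_of_mem hh, hr⟩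

/-- A right `U(n)`-invariant function with finite support modulo `U(n)` is a finite linear
combination of left translates of the unit. -/
theorem exists_reps219w {k : Type} [Field k] [Valued k T6.Γ₀] (n : ℕ) (φ : GL (Fin 2) k → ℂ)
    (hφ : T6.IsBiInv (T6.InU n) φ) (hfin : T6.HasFinSupp (T6.InU n) φ) :
    ∃ R : Finset (GL (Fin 2) k), (∀ x ∈ R, φ x ≠ 0) ∧
      ∀ y : GL (Fin 2) k, φ y = ∑ x ∈ R, φ x * unitFn893 n (x⁻¹ * y) := by
  classical
  have hright : ∀ (g u : GL (Fin 2) k), T6.InU n u → φ (g * u) = φ g := by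
    intro g u hu
    have := hφ 1 u g (inU_one219l n) hu
    rwa [one_mul] at this
  obtain ⟨F, hF⟩ := hfin
  obtain ⟨H, _, hirr, hcov⟩ := exists_irredundant219w
    (fun a b : GL (Fin 2) k => ∃ u : GL (Fin 2) k, T6.InU n u ∧ b = a * u)
    (fun a => ⟨1, inU_one219l n, (mul_one a).symm⟩)
    (fun a b ⟨u, hu, e⟩ => ⟨u⁻¹, T6.H944.inU_inv944 _ _ hu, by rw [e, mul_inv_cancel_right]⟩) F
  refine ⟨H.filter (fun x => φ x ≠ 0), fun x hx => (Finset.mem_filter.1 hx).2, fun y => ?_⟩
  -- the term of `x` vanishes unless `y ∈ x U`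
  have hterm : ∀ x : GL (Fin 2) k, ¬ T6.InU n (x⁻¹ * y) → φ x * unitFn893 n (x⁻¹ * y) = 0 := by
    intro x hx
    rw [unitFn_eq219l, if_neg hx, mul_zero]
  by_cases hy : φ y = 0
  · rw [hy]
    symm
    refine Finset.sum_eq_zero (fun x hx => ?_)
    by_cases hxy : T6.InU n (x⁻¹ * y)
    · exfalso
      have e : y = x * (x⁻¹ * y) := by rw [mul_inv_cancel_left]
      have h1 := hright x _ hxy
      rw [← e, hy] at h1
      exact (Finset.mem_filter.1 hx).2 h1.symm
    · exact hterm x hxy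
  · obtain ⟨x₀, hx₀, u₀, hu₀, e₀⟩ := hF y hy
    obtain ⟨h, hh, u', hu', e'⟩ := hcov x₀ hx₀
    have ey : y = h * (u' * u₀) := by rw [e₀, e', mul_assoc]
    have huu : T6.InU n (u' * u₀) := T6.H944.inU_mul944 _ _ _ hu' hu₀
    have hφh : φ h = φ y := by rw [ey, hright h _ huu]
    have hhR : h ∈ H.filter (fun x => φ x ≠ 0) :=
      Finset.mem_filter.2 ⟨hh, by rw [hφh]; exact hy⟩
    rw [Finset.sum_eq_single h]
    · have e1 : h⁻¹ * y = u' * u₀ := by rw [ey, inv_mul_cancel_left]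
      rw [e1, unitFn_eq219l, if_pos huu, mul_one, hφh]
    · intro x hx hne
      apply hterm
      intro hxy
      apply hirr h hh x (Finset.mem_filter.1 hx).1 (fun e => hne e.symm)
      refine ⟨(u' * u₀) * (x⁻¹ * y)⁻¹, T6.H944.inU_mul944 _ _ _ huu
        (T6.H944.inU_inv944 _ _ hxy), ?_⟩
      rw [← mul_assoc, ← ey]
      group
    · intro hn
      exact absurd hhR hn

/-! ## 2. Global: glued families -/

variable {K : Type} [Field K] [NumberField K]

theorem exists_glue219w (T₀ : Finset (HeightOneSpectrum (𝓞 K))) :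
    ∃ gl : (∀ v ∈ T₀, GL (Fin 2) (v.adicCompletion K)) → G K,
      ∀ p, (∀ w : InfinitePlace K, TrivAtInf w (gl p)) ∧
        (∀ v (h : v ∈ T₀), finGL305 v (gl p) = p v h) ∧
        ∀ v : HeightOneSpectrum (𝓞 K), v ∉ T₀ → finGL305 v (gl p) = 1 := by
  classical
  refine ⟨fun p => glue_r317 T₀ (fun v => if h : v ∈ T₀ then p v h else 1)
    (fun v hv => dif_neg hv) (fun w => 1), fun p => ⟨fun w i j => rfl, fun v h => ?_,
      fun v hv => ?_⟩⟩
  · rw [finGL_glue_r317]
    exact dif_pos h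
  · rw [finGL_glue_r317]
    exact dif_neg hv

theorem finGL_inv_coe219w (v : HeightOneSpectrum (𝓞 K)) (h : G K) :
    (((finGL305 v h)⁻¹ : GL (Fin 2) (v.adicCompletion K)) :
      Matrix (Fin 2) (Fin 2) (v.adicCompletion K)) = finComp v h⁻¹ := by
  rw [← map_inv]
  rfl

theorem outT_mono219w {S T : Finset (HeightOneSpectrum (𝓞 K))} (hST : S ⊆ T) {x : G K}
    (hx : OutT305 S x) : OutT305 T x :=
  fun v hv => hx v (fun hvS => hv (hST hvS))

open Classical in
/-- **THE CORE**: the pure tensor with the components `ψ` at `T₀` is the sum over the glued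
families of representatives of the left translates of the pure tensor with unit components. -/
theorem swapSum_core219w (T₀ T : Finset (HeightOneSpectrum (𝓞 K))) (hT : T₀ ⊆ T)
    (m : HeightOneSpectrum (𝓞 K) → ℕ)
    (ψ f₀ : ∀ v : HeightOneSpectrum (𝓞 K), GL (Fin 2) (v.adicCompletion K) → ℂ)
    (F : InfinitePlace K → GL (Fin 2) ℂ → ℂ)
    (R : ∀ v : HeightOneSpectrum (𝓞 K), Finset (GL (Fin 2) (v.adicCompletion K)))
    (hdec : ∀ v ∈ T₀, ∀ y : GL (Fin 2) (v.adicCompletion K),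
      ψ v y = ∑ x ∈ R v, ψ v x * unitFn893 (m v) (x⁻¹ * y))
    (hf₀ : ∀ v ∈ T₀, f₀ v = unitFn893 (m v))
    (gl : (∀ v ∈ T₀, GL (Fin 2) (v.adicCompletion K)) → G K)
    (hgl : ∀ p, (∀ w : InfinitePlace K, TrivAtInf w (gl p)) ∧
      (∀ v (h : v ∈ T₀), finGL305 v (gl p) = p v h) ∧
      ∀ v : HeightOneSpectrum (𝓞 K), v ∉ T₀ → finGL305 v (gl p) = 1)
    (ψ' : ∀ v : HeightOneSpectrum (𝓞 K), GL (Fin 2) (v.adicCompletion K) → ℂ)
    (hψ'1 : ∀ v ∈ T₀, ψ' v = ψ v) (hψ'2 : ∀ v, v ∉ T₀ → ψ' v = f₀ v) (y : G K) :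
    pure305 T ψ' F y
      = ∑ p ∈ T₀.pi R, (∏ v ∈ T₀, ψ v (finGL305 v (gl p))) * pure305 T f₀ F ((gl p)⁻¹ * y) := by
  classical
  -- the translates
  have hOx : ∀ p, gl p ∈ outSub_r317 T := by
    intro p
    refine outT_of_inU219l T (fun _ => 0) (fun v hv => ?_)
    rw [(hgl p).2.2 v (fun h => hv (hT h))]
    exact inU_one219l 0
  have htr : ∀ p, pure305 T f₀ F ((gl p)⁻¹ * y)
      = if OutT305 T y then
          ((∏ v ∈ T \ T₀, f₀ v (finGL305 v y))
            * ∏ v ∈ T₀, unitFn893 (m v) ((finGL305 v (gl p))⁻¹ * finGL305 v y))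
            * ∏ w : InfinitePlace K, F w (infGL305 w y)
        else 0 := by
    intro p
    rw [pure305_eq219l]
    have hiff : OutT305 T ((gl p)⁻¹ * y) ↔ OutT305 T y :=
      (outSub_r317 T).mul_mem_cancel_left ((outSub_r317 T).inv_mem (hOx p))
    by_cases hy : OutT305 T y
    · rw [if_pos hy, if_pos (hiff.2 hy)]
      have hInf : ∏ w : InfinitePlace K, F w (infGL305 w ((gl p)⁻¹ * y))
          = ∏ w : InfinitePlace K, F w (infGL305 w y) := by
        refine Finset.prod_congr rfl (fun w _ => ?_)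
        rw [map_mul, map_inv, infGL_of_triv219l w ((hgl p).1 w), inv_one, one_mul]
      rw [hInf, ← Finset.prod_sdiff hT]
      congr 2
      · refine Finset.prod_congr rfl (fun v hv => ?_)
        have hv0 : v ∉ T₀ := (Finset.mem_sdiff.1 hv).2
        rw [map_mul, map_inv, (hgl p).2.2 v hv0, inv_one, one_mul]
      · refine Finset.prod_congr rfl (fun v hv => ?_)
        rw [hf₀ v hv, map_mul, map_inv]
    · rw [if_neg hy, if_neg (fun h => hy (hiff.1 h))]
  rw [pure305_eq219l]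
  by_cases hy : OutT305 T y
  · rw [if_pos hy]
    have hsum : ∑ p ∈ T₀.pi R, (∏ v ∈ T₀, ψ v (finGL305 v (gl p)))
          * pure305 T f₀ F ((gl p)⁻¹ * y)
        = ((∏ v ∈ T \ T₀, f₀ v (finGL305 v y))
            * ∑ p ∈ T₀.pi R, ∏ v ∈ T₀, (ψ v (finGL305 v (gl p))
              * unitFn893 (m v) ((finGL305 v (gl p))⁻¹ * finGL305 v y)))
          * ∏ w : InfinitePlace K, F w (infGL305 w y) := by
      rw [Finset.mul_sum, Finset.sum_mul]
      refine Finset.sum_congr rfl (fun p _ => ?_)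
      rw [htr p, if_pos hy, Finset.prod_mul_distrib]
      ring
    rw [hsum, ← Finset.prod_sdiff hT]
    congr 2
    · refine Finset.prod_congr rfl (fun v hv => ?_)
      rw [hψ'2 v (Finset.mem_sdiff.1 hv).2]
    · have h1 : ∏ v ∈ T₀, ψ' v (finGL305 v y)
          = ∏ v ∈ T₀, ∑ x ∈ R v, ψ v x * unitFn893 (m v) (x⁻¹ * finGL305 v y) := by
        refine Finset.prod_congr rfl (fun v hv => ?_)
        rw [hψ'1 v hv, hdec v hv]
      rw [h1, Finset.prod_sum]
      refine Finset.sum_congr rfl (fun p _ => ?_)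
      rw [← Finset.prod_attach T₀ (fun v => ψ v (finGL305 v (gl p))
        * unitFn893 (m v) ((finGL305 v (gl p))⁻¹ * finGL305 v y))]
      refine Finset.prod_congr rfl (fun v _ => ?_)
      rw [(hgl p).2.1 v.1 v.2]
  · rw [if_neg hy]
    symm
    refine Finset.sum_eq_zero (fun p _ => ?_)
    rw [htr p, if_neg hy, mul_zero]

/-! ## 3. The level at `u` -/

theorem valued_lt_one_of_mem_closure219w (w : HeightOneSpectrum (𝓞 K))
    {x : w.adicCompletion K} (hx : x ∈ idealClosure w.asIdeal w) : Valued.v x < 1 := by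
  by_contra hlt
  have hx1 : (1 : WithZero (Multiplicative ℤ)) ≤ Valued.v x := not_lt.1 hlt
  have hx0 : x ≠ 0 := by
    rintro rfl
    rw [map_zero] at hx1
    exact absurd hx1 (not_le.2 zero_lt_one)
  obtain ⟨y, hy, a, ha, rfl⟩ :=
    mem_closure_iff_nhds.1 hx _ (T2.H131.ball_mem_nhds_h131 x x hx0)
  have hy' : Valued.v (toC981 w a - x) < Valued.v x := hy
  have hya : Valued.v (toC981 w a) < 1 := by
    rw [valued_toC981]
    exact (w.intValuation_lt_one_iff_mem a).2 ha
  have e : toC981 w a = x + (toC981 w a - x) := by ring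
  have h1 : Valued.v (toC981 w a) = Valued.v x := by
    conv_lhs => rw [e]
    exact Valuation.map_add_eq_of_lt_left _ hy'
  rw [h1] at hya
  exact absurd hya hlt

theorem level_pos219w {𝔫 : Ideal (𝓞 K)} {m : HeightOneSpectrum (𝓞 K) → ℕ}
    (hlev : IsLevelOf893 𝔫 m) (u : HeightOneSpectrum (𝓞 K)) (hu : u.asIdeal ∣ 𝔫) :
    1 ≤ m u := by
  by_contra h0
  have h00 : m u = 0 := by omega
  have h1 : (1 : u.adicCompletion K) ∈ idealClosure 𝔫 u := by
    refine (hlev u 1).2 ?_
    rw [h00, map_one, Nat.cast_zero, neg_zero, WithZero.exp_zero]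
  have hle : 𝔫 ≤ u.asIdeal := Ideal.le_of_dvd hu
  have h2 : (1 : u.adicCompletion K) ∈ idealClosure u.asIdeal u :=
    closure_mono (Set.image_mono hle) h1
  have h3 := valued_lt_one_of_mem_closure219w u h2
  rw [map_one] at h3
  exact lt_irrefl _ h3

/-! ## 4. The leaf -/

section Leaf

variable (K)
variable (K' : Type) [Field K'] [NumberField K'] [Algebra K K']

open Classical in
theorem swDn_eq219w (B : L2Base K K') (T₀ : Finset (HeightOneSpectrum (𝓞 K)))
    (fb f₀ : ∀ v : HeightOneSpectrum (𝓞 K), GL (Fin 2) (v.adicCompletion K) → ℂ)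
    (v : HeightOneSpectrum (𝓞 K)) :
    PB57.swDn57 B T₀ fb f₀ v
      = if v = B.u then iwFn893 else if v ∈ T₀ then fb v else f₀ v := rfl

/-- **LEAF PB.0.D0 `PB57.SwapDnSumC57`.** -/
theorem swapDnSumC219 : PB57.SwapDnSumC57 K K' := by
  intro ℓ hcyc hℓ hK Φe B hB hram g hg 𝔫 hlev μc hμc T₀ n n₀ m hexp c₁ Φ₁ F₁ hA fb hfb
    Ω iT _ _ _ iM _ ν _ T T' φ₀ Φ f₀ F hdat
  classical
  have huT : B.u ∈ T₀ := (hexp.mem_T₀ B.u).2 hlev.u_level
  have hmu : 1 ≤ m B.u := level_pos219w hexp.lev_m B.u hlev.u_level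
  -- the swapped components at the level
  obtain ⟨ψ, hψu, hψn⟩ : ∃ ψ : ∀ v : HeightOneSpectrum (𝓞 K),
      GL (Fin 2) (v.adicCompletion K) → ℂ,
      (∀ v, v = B.u → ψ v = iwFn893) ∧ (∀ v, v ≠ B.u → ψ v = fb v) :=
    ⟨fun v => if v = B.u then iwFn893 else fb v, fun v h => if_pos h, fun v h => if_neg h⟩
  have hR : ∀ v : HeightOneSpectrum (𝓞 K), ∃ R : Finset (GL (Fin 2) (v.adicCompletion K)),
      v ∈ T₀ → (∀ x ∈ R, ψ v x ≠ 0) ∧
        ∀ y : GL (Fin 2) (v.adicCompletion K),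
          ψ v y = ∑ x ∈ R, ψ v x * unitFn893 (m v) (x⁻¹ * y) := by
    intro v
    by_cases hv : v ∈ T₀
    · have hinv : T6.IsBiInv (T6.InU (m v)) (ψ v) ∧ T6.HasFinSupp (T6.InU (m v)) (ψ v) := by
        by_cases hvu : v = B.u
        · rw [hψu v hvu]
          have hmv : 1 ≤ m v := by rw [hvu]; exact hmu
          exact PB616.iw_inv_at616 v hmv
        · rw [hψn v hvu]
          exact hfb.inv_down v (Finset.mem_erase.2 ⟨hvu, hv⟩)
      obtain ⟨R, h1, h2⟩ := exists_reps219w (m v) (ψ v) hinv.1 hinv.2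
      exact ⟨R, fun _ => ⟨h1, h2⟩⟩
    · exact ⟨∅, fun h => absurd h hv⟩
  choose R hR using hR
  obtain ⟨gl, hgl⟩ := exists_glue219w T₀
  have hinj : ∀ p ∈ T₀.pi R, ∀ q ∈ T₀.pi R, gl p = gl q → p = q := by
    intro p _ q _ e
    funext v hv
    rw [← (hgl p).2.1 v hv, ← (hgl q).2.1 v hv, e]
  refine ⟨(T₀.pi R).image gl, fun x => ∏ v ∈ T₀, ψ v (finGL305 v x), ?_, ?_⟩
  · intro x hx
    obtain ⟨p, hp, rfl⟩ := Finset.mem_image.1 hx
    refine ⟨(hgl p).1, fun v hv => ?_, ?_⟩
    · show finComp v (gl p) = 1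
      have := (hgl p).2.2 v hv
      rw [← coe_finGL_r317, this]
      rfl
    · have hpu : p B.u huT ∈ R B.u := (Finset.mem_pi.1 hp) B.u huT
      have hne := (hR B.u huT).1 _ hpu
      rw [hψu B.u rfl] at hne
      have hiw := PB616.inIw_of_iwFn_ne_zero616 hne
      rw [← (hgl p).2.1 B.u huT] at hiw
      refine ⟨fun i j => ?_, fun i j => ?_, ?_⟩
      · exact (HeightOneSpectrum.mem_adicCompletionIntegers _ _ _).2 (hiw.1 i j)
      · have h2 := hiw.2.1 i j
        rw [finGL_inv_coe219w] at h2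
        exact (HeightOneSpectrum.mem_adicCompletionIntegers _ _ _).2 h2
      · exact hiw.2.2
  · intro ω y
    obtain ⟨hd1, -⟩ := hdat
    have hTω : T₀ ⊆ T ω := (hd1 ω).1
    have hLoc := (hd1 ω).2.2
    rw [Finset.sum_image hinj]
    exact swapSum_core219w T₀ (T ω) hTω m ψ (f₀ ω) (F ω) R (fun v hv => (hR v hv).2)
      hLoc.1 gl hgl (PB57.swDn57 B T₀ fb (f₀ ω))
      (fun v hv => by
        rw [swDn_eq219w]
        by_cases hvu : v = B.u
        · rw [if_pos hvu, hψu v hvu]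
        · rw [if_neg hvu, if_pos hv, hψn v hvu])
      (fun v hv => by
        rw [swDn_eq219w]
        have hvu : v ≠ B.u := fun e => hv (e ▸ huT)
        rw [if_neg hvu, if_neg hv]) y

end Leaf

end Fermat.Agent.LT.T7.H219

end
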